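/-
S31 (helper34): the Prop-valued LEAVES consumed by the top of S31
(`Fermat/Agent/S31/H34/Top.lean`).  Definitions only (no proofs): every leaf is a closed
statement about Prelude objects and the landed `heckeHom`.

* `AJLeaf N p`     : Program A's Abel–Jacobi leaf (R1), modulus `p ^ n`, integral lattice;
* `ESLeaf N p`     : the S37 core in hcomm-free form (Frobenius quadratic + trivial inertia);
* `CycLeaf p`      : the mod `p ^ n` cyclotomic character;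
* `StableLeaf N p` : a finitely generated `p ^ n`-torsion subgroup of `JZero N` lies in a
                     Galois- and Hecke-stable `p ^ n`-torsion subgroup fixed by a finite level;
* `HALeaf N p S`   : the Hecke algebra of forms acts faithfully on the lattice, with saturation.
-/
import Mathlib
import Fermat.Prelude.Def_ModularCurve_HeckeModule
import Fermat.Prelude.Def_CuspForm_HeckeAlgebra
import Fermat.Prelude.Def_ModularCurve_PeriodMap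
import Fermat.Agent.S16.H75.Gamma0Hecke

set_option autoImplicit false

open CongruenceSubgroup ModularCurve ModularCurve.Period CuspForm
open Fermat.Agent.S16.H75 (heckeHom)

namespace Fermat.Agent.S31.H34

/-- The integral lattice `Hom_par(Γ₀(N), ℤ)`. -/
abbrev Lat (N : ℕ) : Type := ↥(parabolicHoms ℤ (Gamma0 N) ℤ)

/-- **(AJ)** = (R1): for every `n` an additive map `AJ : Hom_par(Γ₀(N), ℤ) → J₀(N)(ℚ̄)` with kernel
exactly `p ^ n • Hom_par` which intertwines `heckeHom N ℓ ℤ` and `heckeOperatorBar N ℓ` for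
`ℓ ∤ N`. -/
def AJLeaf (N p : ℕ) [NeZero N] : Prop :=
  ∀ n : ℕ, ∃ AJ : Lat N →+ JZero N,
    (∀ ψ : Lat N, AJ ψ = 0 ↔ ∃ φ : Lat N, ψ = p ^ n • φ) ∧
    ∀ ℓ : Nat.Primes, ¬ (ℓ : ℕ) ∣ N → ∀ ψ ψ' : Lat N,
      (ψ' : Additive (Gamma0 N) →+ ℤ) = heckeHom N ℓ ℤ (ψ : Additive (Gamma0 N) →+ ℤ) →
        heckeOperatorBar N ℓ (AJ ψ) = AJ ψ'

/-- **(ES)** = the S37 core, hcomm-free: on `p`-power torsion of `J₀(N)(ℚ̄)` and for `ℓ ∤ N p`,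
inertia at `ℓ` is trivial and Frobenius lifts satisfy `σ² - T_ℓ σ + ℓ = 0`. -/
def ESLeaf (N p : ℕ) [NeZero N] : Prop :=
  ∀ (ℓ : ℕ) (hℓ : ℓ.Prime), ¬ ℓ ∣ N * p →
    ∀ A : ValuationSubring (AlgebraicClosure ℚ), A.LiesOverPrime ℓ →
      ∀ x : JZero N, (∃ n : ℕ, p ^ n • x = 0) →
        (∀ σ ∈ A.inertiaSubgroupIn ℚ, σ • x = x) ∧
        ∀ σ : AlgebraicClosure ℚ ≃ₐ[ℚ] AlgebraicClosure ℚ, A.IsFrobeniusAt σ ℓ →
          σ • σ • x - heckeOperatorBar N ⟨ℓ, hℓ⟩ (σ • x) + ℓ • x = 0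

/-- **(CYC)** the mod `p ^ n` cyclotomic character: finite level, `ℓ` at Frobenius lifts at
`ℓ ≠ p`, trivial on inertia at `q ≠ p`. -/
def CycLeaf (p : ℕ) : Prop :=
  ∀ n : ℕ, ∃ ε : (AlgebraicClosure ℚ ≃ₐ[ℚ] AlgebraicClosure ℚ) →* (ZMod (p ^ n))ˣ,
    (∃ E : IntermediateField ℚ (AlgebraicClosure ℚ), FiniteDimensional ℚ E ∧
      ∀ σ : AlgebraicClosure ℚ ≃ₐ[ℚ] AlgebraicClosure ℚ, (∀ a ∈ E, σ a = a) → ε σ = 1) ∧
    (∀ ℓ : ℕ, ℓ.Prime → ℓ ≠ p → ∀ A : ValuationSubring (AlgebraicClosure ℚ), A.LiesOverPrime ℓ →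
      ∀ σ : AlgebraicClosure ℚ ≃ₐ[ℚ] AlgebraicClosure ℚ, A.IsFrobeniusAt σ ℓ →
        ((ε σ : (ZMod (p ^ n))ˣ) : ZMod (p ^ n)) = (ℓ : ZMod (p ^ n))) ∧
    (∀ q : ℕ, q.Prime → q ≠ p → ∀ A : ValuationSubring (AlgebraicClosure ℚ), A.LiesOverPrime q →
      ∀ σ ∈ A.inertiaSubgroupIn ℚ, ε σ = 1)

/-- **(X_n)** every finitely generated subgroup of `J₀(N)(ℚ̄)` killed by `p ^ n` lies in a
subgroup killed by `p ^ n`, stable under Galois and under all `heckeOperatorBar N ℓ`, and fixed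
pointwise by `Gal(ℚ̄ / E)` for a number field `E`. -/
def StableLeaf (N p : ℕ) [NeZero N] : Prop :=
  ∀ (n : ℕ) (M : AddSubgroup (JZero N)), M.FG → (∀ x ∈ M, p ^ n • x = 0) →
    ∃ (Z : AddSubgroup (JZero N)) (E : IntermediateField ℚ (AlgebraicClosure ℚ)),
      FiniteDimensional ℚ E ∧ M ≤ Z ∧ (∀ x ∈ Z, p ^ n • x = 0) ∧
      (∀ (g : AlgebraicClosure ℚ ≃ₐ[ℚ] AlgebraicClosure ℚ), ∀ x ∈ Z, g • x ∈ Z) ∧
      (∀ (ℓ : Nat.Primes), ∀ x ∈ Z, heckeOperatorBar N ℓ x ∈ Z) ∧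
      (∀ σ : AlgebraicClosure ℚ ≃ₐ[ℚ] AlgebraicClosure ℚ, (∀ a ∈ E, σ a = a) → ∀ x ∈ Z, σ • x = x)

/-- **(HA)** = (CMP) + (AR): the Hecke algebra of forms acts on the lattice (`T_ℓ ↦ heckeHom N ℓ ℤ`)
and there is a saturation exponent `c`: if `Φ f` maps the lattice into `p ^ (n + c)` times the
lattice then `f ∈ p ^ n • heckeAlgebra`. -/
def HALeaf (N p : ℕ) [NeZero N] (S : Finset ℕ) : Prop :=
  ∃ (Φ : heckeAlgebra N 2 (↑S : Set ℕ) →+* Module.End ℤ (Lat N)) (c : ℕ),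
    (∀ (ℓ : ℕ) (hℓ : ℓ.Prime) (hℓN : ¬ ℓ ∣ N) (hℓS : ℓ ∉ (↑S : Set ℕ)) (ψ : Lat N),
      ((Φ (heckeAlgebra.T hℓ hℓN hℓS) ψ : Lat N) : Additive (Gamma0 N) →+ ℤ) =
        heckeHom N ⟨ℓ, hℓ⟩ ℤ (ψ : Additive (Gamma0 N) →+ ℤ)) ∧
    ∀ (n : ℕ) (f : heckeAlgebra N 2 (↑S : Set ℕ)),
      (∀ ψ : Lat N, ∃ φ : Lat N, Φ f ψ = p ^ (n + c) • φ) →
        ∃ f' : heckeAlgebra N 2 (↑S : Set ℕ), f = p ^ n • f'

end Fermat.Agent.S31.H34
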