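/-
S31 (helper34): the frozen statement from the leaves of `Leaves.lean`.

`isUnramifiedAt_of_leaves`: if `H : HeckeGaloisRepDatum N S 𝒪 θ T` with `p ∈ S`, the primes of `N`
in `S`, then `H.ρ` is unramified at every prime `q ∉ S`, PROVIDED the five leaves
`AJLeaf N p`, `ESLeaf N p`, `CycLeaf p`, `StableLeaf N p`, `HALeaf N p S`.

Proof.  By helper35's `eq_one_of_forall_trace_mul_eq` it suffices to show
`tr ρ(τ g) = tr ρ(g)` for `τ` in an inertia group at `q` and all `g`; `T` is separated, so modulo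
`𝔪_T ^ m` for every `m`.  Let `c` be the saturation exponent of (HA), `n = m + c`, `AJ = AJ_n`,
`Z ⊇ AJ(L)` and `E₂` from (X_n), `ε`, `E₃` from (CYC), `E₁` the level of `ρ mod 𝔪_T ^ m`,
`E = E₁ ⊔ E₂ ⊔ E₃`.  Cyclic Frobenius density (helper69) gives Frobenius lifts `h` at `ℓ ∉ S`,
`h'` at `ℓ' ∉ S` and `i, i'` with `h ^ i ∈ g Fix(E)`, `h' ^ i' ∈ τ g Fix(E)`.  Then
* `tr ρ(g) ≡ V_i(π T_ℓ, ℓ)` and `tr ρ(τ g) ≡ V_i'(π T_ℓ', ℓ')` modulo `𝔪_T ^ m`;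
* on `Z`: `g + ℓ ^ i g⁻¹ = V_i(T_ℓ, ℓ)` and `g + ℓ' ^ i' g⁻¹ = V_i'(T_ℓ', ℓ')` (τ acts trivially),
  and `ℓ ^ i ≡ ℓ' ^ i'` modulo `p ^ n` (cyclotomic character), so
  `V_i(T_ℓ, ℓ) - V_i'(T_ℓ', ℓ')` kills `Z ⊇ AJ(L)`;
* by (AJ) `Φ (V_i(T_ℓ, ℓ) - V_i'(T_ℓ', ℓ'))` maps `L` into `p ^ n L`; by (HA)
  `V_i(T_ℓ, ℓ) - V_i'(T_ℓ', ℓ') ∈ p ^ m • heckeAlgebra`, and `π` of it lies in `𝔪_T ^ m`.
-/
import Mathlib
import Fermat.Prelude.Def_CuspForm_HeckeGaloisRepDatum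
import Fermat.Agent.S31.H34.Leaves
import Fermat.Agent.S31.H35.Lucas
import Fermat.Agent.S31.H35.TraceKer
import Fermat.Agent.S29.H69.FrobCosetPos
import Fermat.Agent.S41.H40.Lattice
import Fermat.Agent.S29.H60.GaloisHecke

set_option autoImplicit false

open CongruenceSubgroup ModularCurve ModularCurve.Period CuspForm Polynomial
open Fermat.Agent.S16.H75 (heckeHom)
open Fermat.Agent.S31.H35 (lucasV lucasV_zero lucasV_one lucasV_add_two map_lucasV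
  trace_pow_eq_lucasV)

namespace Fermat.Agent.S31.H34

local notation "Qb" => AlgebraicClosure ℚ
local notation "Γ" => (AlgebraicClosure ℚ ≃ₐ[ℚ] AlgebraicClosure ℚ)

/-! ### Traces and congruences -/

section Trace

variable {T V : Type*} [CommRing T] [AddCommGroup V] [Module T V]

theorem map_mem_smul_top (I : Ideal T) (f : V →ₗ[T] V) {x : V}
    (hx : x ∈ I • (⊤ : Submodule T V)) : f x ∈ I • (⊤ : Submodule T V) := by
  refine Submodule.smul_induction_on hx ?_ ?_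
  · intro a ha v _
    rw [map_smul]
    exact Submodule.smul_mem_smul ha Submodule.mem_top
  · intro x y hx hy
    rw [map_add]
    exact Submodule.add_mem _ hx hy

variable [Module.Free T V] [Module.Finite T V]

/-- An endomorphism of a finite free module with image in `I • V` has trace in `I`. -/
theorem trace_mem_of_forall_mem_smul_top (I : Ideal T) (f : Module.End T V)
    (hf : ∀ v, f v ∈ I • (⊤ : Submodule T V)) : LinearMap.trace T V f ∈ I := by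
  classical
  let b := Module.Free.chooseBasis T V
  have key : ∀ x ∈ I • (⊤ : Submodule T V), ∀ j, b.repr x j ∈ I := by
    intro x hx j
    refine Submodule.smul_induction_on hx ?_ ?_
    · intro a ha v _
      rw [map_smul, Finsupp.smul_apply, smul_eq_mul]
      exact I.mul_mem_right _ ha
    · intro x y hx hy
      rw [map_add, Finsupp.add_apply]
      exact I.add_mem hx hy
  rw [LinearMap.trace_eq_matrix_trace T b f, Matrix.trace]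
  refine Ideal.sum_mem _ fun i _ => ?_
  rw [Matrix.diag_apply, LinearMap.toMatrix_apply]
  exact key _ (hf _) i

end Trace

/-- The trace of `ρ g` is congruent to `V_i(t, d)` modulo `𝔪 ^ m` when `g ≡ h ^ i` modulo the
level of `ρ mod 𝔪 ^ m` and `ρ h` has characteristic polynomial `X² - t X + d`. -/
theorem trace_sub_lucasV_mem {T : Type} [CommRing T] [IsLocalRing T] (ρ : GaloisRepAdic T) (m : ℕ)
    (E : IntermediateField ℚ Qb)
    (hE : ∀ σ : Γ, (∀ x ∈ E, σ x = x) → ∀ v : ρ.V,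
      ρ.ρ σ v - v ∈ (IsLocalRing.maximalIdeal T ^ m) • (⊤ : Submodule T ρ.V))
    (g h : Γ) (i : ℕ) (hgh : ∀ x ∈ E, (g⁻¹ * h ^ i) x = x) (t d : T)
    (hch : LinearMap.charpoly (ρ.ρ h) = X ^ 2 - C t * X + C d) :
    LinearMap.trace T ρ.V (ρ.ρ g) - lucasV t d i ∈ IsLocalRing.maximalIdeal T ^ m := by
  have h1 : ρ.ρ (h ^ i) = ρ.ρ g * ρ.ρ (g⁻¹ * h ^ i) := by
    rw [← map_mul, mul_inv_cancel_left]
  have h2 : LinearMap.trace T ρ.V (ρ.ρ (h ^ i)) = lucasV t d i := by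
    rw [map_pow]
    exact trace_pow_eq_lucasV _ t d hch i
  have h3 : LinearMap.trace T ρ.V (ρ.ρ g * (ρ.ρ (g⁻¹ * h ^ i) - 1)) ∈
      IsLocalRing.maximalIdeal T ^ m := by
    apply trace_mem_of_forall_mem_smul_top
    intro v
    exact map_mem_smul_top _ (ρ.ρ g) (hE _ hgh v)
  have h4 : LinearMap.trace T ρ.V (ρ.ρ g) - lucasV t d i =
      - LinearMap.trace T ρ.V (ρ.ρ g * (ρ.ρ (g⁻¹ * h ^ i) - 1)) := by
    rw [← h2, h1, mul_sub, mul_one, map_sub]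
    ring
  rw [h4]
  exact neg_mem h3

/-! ### The Lucas sequence for `ℤ`-linear endomorphisms -/

section LucasLin

variable {L X : Type*} [AddCommGroup L] [AddCommGroup X]

theorem lucasV_end_add_two_apply (a : Module.End ℤ L) (d : ℕ) (i : ℕ) (x : L) :
    lucasV a (d : Module.End ℤ L) (i + 2) x =
      a (lucasV a (d : Module.End ℤ L) (i + 1) x) - d • lucasV a (d : Module.End ℤ L) i x := by
  rw [lucasV_add_two, LinearMap.sub_apply, Module.End.mul_apply, Module.End.mul_apply,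
    Module.End.natCast_apply]

theorem lucasV_end_zero_apply (a : Module.End ℤ L) (d : ℕ) (x : L) :
    lucasV a (d : Module.End ℤ L) 0 x = x + x := by
  rw [lucasV_zero]
  have : (2 : Module.End ℤ L) = 1 + 1 := by norm_num
  rw [this, LinearMap.add_apply, Module.End.one_apply]

/-- If an additive map intertwines `a` and `b`, it intertwines `V_i(a, d)` and `V_i(b, d)`. -/
theorem lucasV_end_semiconj (φ : L →+ X) (a : Module.End ℤ L) (b : Module.End ℤ X) (d : ℕ)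
    (hab : ∀ x, φ (a x) = b (φ x)) (i : ℕ) (x : L) :
    φ (lucasV a (d : Module.End ℤ L) i x) = lucasV b (d : Module.End ℤ X) i (φ x) := by
  induction i using Nat.strong_induction_on generalizing x with
  | _ n ih =>
    match n with
    | 0 => rw [lucasV_end_zero_apply, lucasV_end_zero_apply, map_add]
    | 1 => rw [lucasV_one, lucasV_one]; exact hab x
    | (k + 2) =>
      rw [lucasV_end_add_two_apply, lucasV_end_add_two_apply, map_sub, hab,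
        ih (k + 1) (by omega), map_nsmul, ih k (by omega)]

end LucasLin

/-! ### Powers of an automorphism satisfying a quadratic relation on a stable subgroup -/

section Pointwise

variable {G J : Type*} [Group G] [AddCommGroup J] [DistribMulAction G J]

/-- On a subgroup `Z` stable under `h`, `h⁻¹` and `t`, where `t` commutes with `h` and
`h² - t h + d = 0`: `h ^ i + d ^ i h ^ (-i) = V_i(t, d)`. -/
theorem pow_smul_add_eq_lucasV (Z : AddSubgroup J) (h : G) (t : Module.End ℤ J) (d : ℕ)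
    (hZh : ∀ x ∈ Z, h • x ∈ Z) (hZh' : ∀ x ∈ Z, h⁻¹ • x ∈ Z) (hZt : ∀ x ∈ Z, t x ∈ Z)
    (hcomm : ∀ x, t (h • x) = h • t x)
    (hquad : ∀ x ∈ Z, h • h • x - t (h • x) + d • x = 0) (i : ℕ) :
    ∀ x ∈ Z, h ^ i • x + d ^ i • (h ^ i)⁻¹ • x = lucasV t (d : Module.End ℤ J) i x := by
  -- `t = h + d h⁻¹` on `Z`
  have ht : ∀ x ∈ Z, t x = h • x + d • h⁻¹ • x := by
    intro x hx
    have h1 := hquad (h⁻¹ • x) (hZh' x hx)
    rw [smul_inv_smul] at h1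
    have h2 : t x = h • x + d • h⁻¹ • x - (h • x - t x + d • h⁻¹ • x) := by abel
    rw [h2, h1, sub_zero]
  have hZpow : ∀ (k : ℕ), ∀ x ∈ Z, h ^ k • x ∈ Z := by
    intro k
    induction k with
    | zero => intro x hx; rwa [pow_zero, one_smul]
    | succ k ih => intro x hx; rw [pow_succ', mul_smul]; exact hZh _ (ih x hx)
  have hZpow' : ∀ (k : ℕ), ∀ x ∈ Z, (h ^ k)⁻¹ • x ∈ Z := by
    intro k
    induction k with
    | zero => intro x hx; rwa [pow_zero, inv_one, one_smul]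
    | succ k ih =>
      intro x hx
      rw [pow_succ', mul_inv_rev, mul_smul]
      exact ih _ (hZh' x hx)
  induction i using Nat.strong_induction_on with
  | _ n ih =>
    intro x hx
    match n with
    | 0 =>
      rw [lucasV_end_zero_apply, pow_zero, pow_zero, inv_one, one_smul, one_smul]
    | 1 =>
      rw [lucasV_one, pow_one, pow_one, ht x hx]
    | (k + 2) =>
      rw [lucasV_end_add_two_apply, ← ih (k + 1) (by omega) x hx, ← ih k (by omega) x hx,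
        map_add, map_nsmul, ht _ (hZpow (k + 1) x hx), ht _ (hZpow' (k + 1) x hx)]
      have e1 : h • h ^ (k + 1) • x = h ^ (k + 2) • x := by
        rw [← mul_smul, ← pow_succ']
      have e2 : h⁻¹ • h ^ (k + 1) • x = h ^ k • x := by
        rw [pow_succ', mul_smul, inv_smul_smul]
      have e3 : h • (h ^ (k + 1))⁻¹ • x = (h ^ k)⁻¹ • x := by
        rw [pow_succ, mul_inv_rev, mul_smul, smul_inv_smul]
      have e4 : h⁻¹ • (h ^ (k + 1))⁻¹ • x = (h ^ (k + 2))⁻¹ • x := by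
        rw [← mul_smul, ← mul_inv_rev, ← pow_succ]
      rw [e1, e2, e3, e4, smul_add, smul_add, smul_smul (d ^ (k + 1)) d, smul_smul d (d ^ k),
        ← pow_succ, ← pow_succ']
      abel

end Pointwise

/-! ### The torsion side -/

theorem nsmul_eq_of_modEq {J : Type*} [AddCommMonoid J] {a b m : ℕ} (hab : a ≡ b [MOD m]) {y : J}
    (hy : m • y = 0) : a • y = b • y := by
  have key : ∀ c : ℕ, c • y = (c % m) • y := by
    intro c
    conv_lhs => rw [← Nat.div_add_mod c m, add_smul, mul_comm, mul_smul, hy, smul_zero, zero_add]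
  rw [key a, key b, hab]

section Torsion

variable {N p : ℕ} [NeZero N]

/-- On a Galois- and Hecke-stable `p ^ n`-torsion subgroup `Z` fixed by `Gal(ℚ̄ / E)`: if
`γ ≡ h ^ i` modulo `Gal(ℚ̄ / E)` for a Frobenius lift `h` at `ℓ ∤ N p`, then
`γ + ℓ ^ i γ⁻¹ = V_i(T_ℓ, ℓ)` on `Z`. -/
theorem smul_add_eq_lucasV (hES : ESLeaf N p) (n : ℕ) (Z : AddSubgroup (JZero N))
    (hZp : ∀ x ∈ Z, p ^ n • x = 0) (hZG : ∀ g : Γ, ∀ x ∈ Z, g • x ∈ Z)
    (hZT : ∀ ℓ : Nat.Primes, ∀ x ∈ Z, heckeOperatorBar N ℓ x ∈ Z)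
    (E : IntermediateField ℚ Qb) (hZE : ∀ σ : Γ, (∀ a ∈ E, σ a = a) → ∀ x ∈ Z, σ • x = x)
    (γ : Γ) (ℓ : ℕ) (hℓ : ℓ.Prime) (hℓNp : ¬ ℓ ∣ N * p) (A : ValuationSubring Qb)
    (hA : A.LiesOverPrime ℓ) (h : Γ) (hh : A.IsFrobeniusAt h ℓ) (i : ℕ)
    (hi : ∀ a ∈ E, (γ⁻¹ * h ^ i) a = a) :
    ∀ x ∈ Z, γ • x + ℓ ^ i • γ⁻¹ • x =
      lucasV (heckeOperatorBar N ⟨ℓ, hℓ⟩) ((ℓ : ℕ) : Module.End ℤ (JZero N)) i x := by
  intro x hx
  have hmain := pow_smul_add_eq_lucasV Z h (heckeOperatorBar N ⟨ℓ, hℓ⟩) ℓ (hZG h) (hZG h⁻¹)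
    (hZT _) (fun y => (Fermat.Agent.S29.H60.galois_smul_heckeOperatorBar N _ h y).symm)
    (fun y hy => (hES ℓ hℓ hℓNp A hA y ⟨n, hZp y hy⟩).2 h hh) i x hx
  have key : ∀ y ∈ Z, h ^ i • y = γ • y := by
    intro y hy
    have h1 := hZE _ hi y hy
    rw [mul_smul] at h1
    exact (inv_smul_eq_iff.1 h1)
  have e1 : h ^ i • x = γ • x := key x hx
  have e2 : (h ^ i)⁻¹ • x = γ⁻¹ • x := by
    rw [inv_smul_eq_iff, key _ (hZG γ⁻¹ x hx), smul_inv_smul]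
  rw [← hmain, e1, e2]

/-- The two Lucas operators attached to Frobenius approximations of `g` and `τ g` agree on `Z`
when `τ` acts trivially on `Z` and on `μ_{p ^ n}`. -/
theorem lucasV_apply_eq_lucasV_apply (hES : ESLeaf N p) (n : ℕ) (Z : AddSubgroup (JZero N))
    (hZp : ∀ x ∈ Z, p ^ n • x = 0) (hZG : ∀ g : Γ, ∀ x ∈ Z, g • x ∈ Z)
    (hZT : ∀ ℓ : Nat.Primes, ∀ x ∈ Z, heckeOperatorBar N ℓ x ∈ Z)
    (E : IntermediateField ℚ Qb) (hZE : ∀ σ : Γ, (∀ a ∈ E, σ a = a) → ∀ x ∈ Z, σ • x = x)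
    (ε : Γ →* (ZMod (p ^ n))ˣ) (hεE : ∀ σ : Γ, (∀ a ∈ E, σ a = a) → ε σ = 1)
    (hεF : ∀ ℓ : ℕ, ℓ.Prime → ℓ ≠ p → ∀ A : ValuationSubring Qb, A.LiesOverPrime ℓ →
      ∀ σ : Γ, A.IsFrobeniusAt σ ℓ →
        ((ε σ : (ZMod (p ^ n))ˣ) : ZMod (p ^ n)) = (ℓ : ZMod (p ^ n)))
    (g τ : Γ) (hτZ : ∀ x ∈ Z, τ • x = x) (hετ : ε τ = 1)
    (ℓ : ℕ) (hℓ : ℓ.Prime) (hℓp : ℓ ≠ p) (hℓNp : ¬ ℓ ∣ N * p) (A : ValuationSubring Qb)
    (hA : A.LiesOverPrime ℓ) (h : Γ) (hh : A.IsFrobeniusAt h ℓ) (i : ℕ)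
    (hi : ∀ a ∈ E, (g⁻¹ * h ^ i) a = a)
    (ℓ' : ℕ) (hℓ' : ℓ'.Prime) (hℓ'p : ℓ' ≠ p) (hℓ'Np : ¬ ℓ' ∣ N * p) (A' : ValuationSubring Qb)
    (hA' : A'.LiesOverPrime ℓ') (h' : Γ) (hh' : A'.IsFrobeniusAt h' ℓ') (i' : ℕ)
    (hi' : ∀ a ∈ E, ((τ * g)⁻¹ * h' ^ i') a = a) :
    ∀ x ∈ Z, lucasV (heckeOperatorBar N ⟨ℓ, hℓ⟩) ((ℓ : ℕ) : Module.End ℤ (JZero N)) i x =
      lucasV (heckeOperatorBar N ⟨ℓ', hℓ'⟩) ((ℓ' : ℕ) : Module.End ℤ (JZero N)) i' x := by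
  intro x hx
  have h1 := smul_add_eq_lucasV hES n Z hZp hZG hZT E hZE g ℓ hℓ hℓNp A hA h hh i hi x hx
  have h2 := smul_add_eq_lucasV hES n Z hZp hZG hZT E hZE (τ * g) ℓ' hℓ' hℓ'Np A' hA' h' hh' i'
    hi' x hx
  have e1 : (τ * g) • x = g • x := by
    rw [mul_smul]
    exact hτZ _ (hZG g x hx)
  have e2 : (τ * g)⁻¹ • x = g⁻¹ • x := by
    rw [mul_inv_rev, mul_smul, inv_smul_eq_iff.2 (hτZ x hx).symm]
  rw [e1, e2] at h2
  -- the cyclotomic character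
  have c1 : ((ε g : (ZMod (p ^ n))ˣ) : ZMod (p ^ n)) = ((ℓ ^ i : ℕ) : ZMod (p ^ n)) := by
    have : ε (h ^ i) = ε g := by
      have h3 : h ^ i = g * (g⁻¹ * h ^ i) := by rw [mul_inv_cancel_left]
      rw [h3, map_mul, hεE _ hi, mul_one]
    rw [← this, map_pow, Units.val_pow_eq_pow_val, hεF ℓ hℓ hℓp A hA h hh, Nat.cast_pow]
  have c2 : ((ε g : (ZMod (p ^ n))ˣ) : ZMod (p ^ n)) = ((ℓ' ^ i' : ℕ) : ZMod (p ^ n)) := by
    have : ε (h' ^ i') = ε g := by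
      have h3 : h' ^ i' = (τ * g) * ((τ * g)⁻¹ * h' ^ i') := by rw [mul_inv_cancel_left]
      rw [h3, map_mul, hεE _ hi', mul_one, map_mul, hετ, one_mul]
    rw [← this, map_pow, Units.val_pow_eq_pow_val, hεF ℓ' hℓ' hℓ'p A' hA' h' hh', Nat.cast_pow]
  have c3 : ℓ ^ i ≡ ℓ' ^ i' [MOD p ^ n] :=
    (ZMod.natCast_eq_natCast_iff _ _ _).1 (c1.symm.trans c2)
  rw [← h1, ← h2, nsmul_eq_of_modEq c3 (hZp _ (hZG g⁻¹ x hx))]

end Torsion

/-! ### The main theorem -/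

section Main

variable {p : ℕ} {N : ℕ} [NeZero N] {S : Finset ℕ}
  {𝒪 : Type} [CommRing 𝒪] [IsDomain 𝒪] [IsDiscreteValuationRing 𝒪]
  [IsAdicComplete (IsLocalRing.maximalIdeal 𝒪) 𝒪]
  {θ : CuspForm.heckeAlgebra N 2 (↑S : Set ℕ) →+* IsLocalRing.ResidueField 𝒪}
  {T : Type} [CommRing T] [IsLocalRing T] [IsNoetherianRing T]
  [IsAdicComplete (IsLocalRing.maximalIdeal T) T] [Algebra 𝒪 T] [IsLocalHom (algebraMap 𝒪 T)]
  [Module.Finite 𝒪 T] [Module.Free 𝒪 T]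

/-- **S31 from its leaves.** -/
theorem isUnramifiedAt_of_leaves (hAJ : AJLeaf N p) (hES : ESLeaf N p) (hCyc : CycLeaf p)
    (hSt : StableLeaf N p) (hHA : HALeaf N p S) (hp : p.Prime)
    (hp𝒪 : (p : 𝒪) ∈ IsLocalRing.maximalIdeal 𝒪) (hpS : p ∈ S)
    (hNS : ∀ q : ℕ, q.Prime → q ∣ N → q ∈ S)
    (H : CuspForm.HeckeGaloisRepDatum N (↑S : Set ℕ) 𝒪 θ T)
    (q : ℕ) (hq : q.Prime) (hqS : q ∉ S) :
    H.ρ.IsUnramifiedAt q := by
  intro P hP τ hτ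
  refine Fermat.Agent.S31.H35.eq_one_of_forall_trace_mul_eq H.ρ H.residual_absIrr τ fun g => ?_
  obtain ⟨Φ, c, hΦT, hsat⟩ := hHA
  have hpT : (p : T) ∈ IsLocalRing.maximalIdeal T := by
    have h1 := map_nonunit (algebraMap 𝒪 T) (p : 𝒪) hp𝒪
    rwa [map_natCast] at h1
  -- primes outside `S`
  have hout : ∀ ℓ : ℕ, ℓ.Prime → ℓ ∉ S → ¬ ℓ ∣ N ∧ ℓ ≠ p ∧ ¬ ℓ ∣ N * p := by
    intro ℓ hℓ hℓS
    have h1 : ¬ ℓ ∣ N := fun h => hℓS (hNS ℓ hℓ h)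
    have h2 : ℓ ≠ p := fun h => hℓS (h ▸ hpS)
    refine ⟨h1, h2, fun h => ?_⟩
    rcases (Nat.Prime.dvd_mul hℓ).1 h with h | h
    · exact h1 h
    · exact h2 ((Nat.prime_dvd_prime_iff_eq hℓ hp).1 h)
  -- `T` is separated: reduce to congruences modulo `𝔪 ^ m`
  rw [← sub_eq_zero]
  refine IsHausdorff.haus (inferInstance : IsHausdorff (IsLocalRing.maximalIdeal T) T) _
    fun m => ?_
  rw [SModEq.zero, smul_eq_mul, Ideal.mul_top]
  obtain ⟨AJ, hAJker, hAJT⟩ := hAJ (m + c)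
  -- the stable subgroup
  have hfin : Module.Finite ℤ (Lat N) := Fermat.Agent.S41.H40.finite_parabolicHoms_int N
  have hfg : (AJ.range).FG := by
    have h1 : AddGroup.FG (Lat N) := Module.Finite.iff_addGroup_fg.1 hfin
    exact (AddGroup.fg_iff_addSubgroup_fg _).1 (AddGroup.fg_range AJ)
  have hAJp : ∀ x ∈ AJ.range, p ^ (m + c) • x = 0 := by
    rintro _ ⟨ψ, rfl⟩
    rw [← map_nsmul]
    exact (hAJker _).2 ⟨ψ, rfl⟩
  obtain ⟨Z, E₂, hE₂fd, hMZ, hZp, hZG, hZT, hZE⟩ := hSt (m + c) AJ.range hfg hAJp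
  obtain ⟨ε, ⟨E₃, hE₃fd, hεE⟩, hεF, hεI⟩ := hCyc (m + c)
  obtain ⟨E₁, hE₁fd, hρE⟩ := H.ρ.isAdicContinuous m
  let E : IntermediateField ℚ Qb := E₁ ⊔ E₂ ⊔ E₃
  have h12 : FiniteDimensional ℚ (E₁ ⊔ E₂ : IntermediateField ℚ Qb) :=
    IntermediateField.finiteDimensional_sup E₁ E₂
  have hEfd : FiniteDimensional ℚ E := IntermediateField.finiteDimensional_sup (E₁ ⊔ E₂) E₃
  have hE₁ : E₁ ≤ E := le_sup_left.trans le_sup_left
  have hE₂ : E₂ ≤ E := le_sup_right.trans le_sup_left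
  have hE₃ : E₃ ≤ E := le_sup_right
  -- Frobenius approximations of `g` and of `τ * g`
  obtain ⟨ℓ, A, h, i, hℓ, hBℓ, hA, hh, -, hi, -⟩ :=
    Fermat.Agent.S29.H69.exists_frobenius_pos_pow_mem_fixingSubgroup E g (S.sup id)
  obtain ⟨ℓ', A', h', i', hℓ', hBℓ', hA', hh', -, hi', -⟩ :=
    Fermat.Agent.S29.H69.exists_frobenius_pos_pow_mem_fixingSubgroup E (τ * g) (S.sup id)
  have hℓS : ℓ ∉ S := fun hmem => absurd (Finset.le_sup (f := id) hmem) (not_le.2 hBℓ)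
  have hℓ'S : ℓ' ∉ S := fun hmem => absurd (Finset.le_sup (f := id) hmem) (not_le.2 hBℓ')
  obtain ⟨hℓN, hℓp, hℓNp⟩ := hout ℓ hℓ hℓS
  obtain ⟨hℓ'N, hℓ'p, hℓ'Np⟩ := hout ℓ' hℓ' hℓ'S
  obtain ⟨hqN, hqp, hqNp⟩ := hout q hq hqS
  have hi0 : ∀ a ∈ E, (g⁻¹ * h ^ i) a = a := fun a ha =>
    (IntermediateField.mem_fixingSubgroup_iff E _).1 hi a ha
  have hi0' : ∀ a ∈ E, ((τ * g)⁻¹ * h' ^ i') a = a := fun a ha =>
    (IntermediateField.mem_fixingSubgroup_iff E _).1 hi' a ha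
  have hℓS' : ℓ ∉ (↑S : Set ℕ) := fun hmem => hℓS (Finset.mem_coe.1 hmem)
  have hℓ'S' : ℓ' ∉ (↑S : Set ℕ) := fun hmem => hℓ'S (Finset.mem_coe.1 hmem)
  -- the Hecke elements
  let tℓ : heckeAlgebra N 2 (↑S : Set ℕ) := heckeAlgebra.T hℓ hℓN hℓS'
  let tℓ' : heckeAlgebra N 2 (↑S : Set ℕ) := heckeAlgebra.T hℓ' hℓ'N hℓ'S'
  let Δ : heckeAlgebra N 2 (↑S : Set ℕ) :=
    lucasV tℓ ((ℓ : ℕ) : heckeAlgebra N 2 (↑S : Set ℕ)) i -
      lucasV tℓ' ((ℓ' : ℕ) : heckeAlgebra N 2 (↑S : Set ℕ)) i'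
  -- the two trace congruences
  have c1 := trace_sub_lucasV_mem H.ρ m E (fun σ hσ => hρE σ fun x hx => hσ x (hE₁ hx)) g h i hi0
    (H.π tℓ) (ℓ : T) (H.charpoly_frob ℓ hℓ hℓN hℓS' A hA h hh)
  have c2 := trace_sub_lucasV_mem H.ρ m E (fun σ hσ => hρE σ fun x hx => hσ x (hE₁ hx)) (τ * g)
    h' i' hi0' (H.π tℓ') (ℓ' : T) (H.charpoly_frob ℓ' hℓ' hℓ'N hℓ'S' A' hA' h' hh')
  have hπΔ : H.π Δ = lucasV (H.π tℓ) (ℓ : T) i - lucasV (H.π tℓ') (ℓ' : T) i' := by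
    show H.π (lucasV tℓ ((ℓ : ℕ) : heckeAlgebra N 2 (↑S : Set ℕ)) i -
      lucasV tℓ' ((ℓ' : ℕ) : heckeAlgebra N 2 (↑S : Set ℕ)) i') = _
    rw [map_sub, map_lucasV, map_lucasV, map_natCast, map_natCast]
  -- the torsion side: `Φ Δ` maps the lattice into `p ^ (m + c)` times the lattice
  have hΔ : ∃ f' : heckeAlgebra N 2 (↑S : Set ℕ), Δ = p ^ m • f' := by
    refine hsat m Δ fun ψ => (hAJker _).1 ?_
    have hΦΔ : Φ Δ = lucasV (Φ tℓ) ((ℓ : ℕ) : Module.End ℤ (Lat N)) i -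
        lucasV (Φ tℓ') ((ℓ' : ℕ) : Module.End ℤ (Lat N)) i' := by
      show Φ (lucasV tℓ ((ℓ : ℕ) : heckeAlgebra N 2 (↑S : Set ℕ)) i -
        lucasV tℓ' ((ℓ' : ℕ) : heckeAlgebra N 2 (↑S : Set ℕ)) i') = _
      rw [map_sub, map_lucasV, map_lucasV, map_natCast, map_natCast]
    rw [hΦΔ, LinearMap.sub_apply, map_sub,
      lucasV_end_semiconj AJ (Φ tℓ) (heckeOperatorBar N ⟨ℓ, hℓ⟩) ℓ
        (fun x => (hAJT ⟨ℓ, hℓ⟩ hℓN x (Φ tℓ x) (hΦT ℓ hℓ hℓN hℓS' x)).symm) i ψ,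
      lucasV_end_semiconj AJ (Φ tℓ') (heckeOperatorBar N ⟨ℓ', hℓ'⟩) ℓ'
        (fun x => (hAJT ⟨ℓ', hℓ'⟩ hℓ'N x (Φ tℓ' x) (hΦT ℓ' hℓ' hℓ'N hℓ'S' x)).symm) i' ψ,
      sub_eq_zero]
    exact lucasV_apply_eq_lucasV_apply hES (m + c) Z hZp hZG hZT E
      (fun σ hσ => hZE σ fun a ha => hσ a (hE₂ ha)) ε
      (fun σ hσ => hεE σ fun a ha => hσ a (hE₃ ha)) hεF g τ
      (fun x hx => (hES q hq hqNp P hP x ⟨m + c, hZp x hx⟩).1 τ hτ) (hεI q hq hqp P hP τ hτ)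
      ℓ hℓ hℓp hℓNp A hA h hh i hi0 ℓ' hℓ' hℓ'p hℓ'Np A' hA' h' hh' i' hi0' (AJ ψ)
      (hMZ ⟨ψ, rfl⟩)
  obtain ⟨f', hf'⟩ := hΔ
  have hπΔmem : H.π Δ ∈ IsLocalRing.maximalIdeal T ^ m := by
    rw [hf', map_nsmul, nsmul_eq_mul, Nat.cast_pow]
    exact Ideal.mul_mem_right _ _ (Ideal.pow_mem_pow hpT m)
  have hfinal : LinearMap.trace T H.ρ.V (H.ρ.ρ (τ * g)) - LinearMap.trace T H.ρ.V (H.ρ.ρ g) =
      (LinearMap.trace T H.ρ.V (H.ρ.ρ (τ * g)) - lucasV (H.π tℓ') (ℓ' : T) i') -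
        (LinearMap.trace T H.ρ.V (H.ρ.ρ g) - lucasV (H.π tℓ) (ℓ : T) i) - H.π Δ := by
    rw [hπΔ]
    ring
  rw [hfinal]
  exact sub_mem (sub_mem c2 c1) hπΔmem

end Main

end Fermat.Agent.S31.H34
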