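/-
S31 (helper34): the leaves of `Leaves.lean` from the landed leaf files, and the frozen S31
from the Abel–Jacobi leaf alone.

* `esLeaf`     ⟸ helper77's `S37.H77.core_free`;
* `cycLeaf`    ⟸ helper76's `S31.H76.cycLeaf`;
* `stableLeaf` ⟸ helper94's `S31.H94.stableLeaf`;
* `haLeaf`     ⟸ helper75's `S31.H75.heckeAction`, `heckeAction_T`, `exists_saturation`;
* `ajLeaf_of_int` : `AJLeaf N p` from the integral shape (R1) of helper96's `S42.H96.exists_AJ_int`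
  at every modulus `p ^ n`;
* `isUnramifiedAt_of_AJLeaf` : the frozen S31 from `AJLeaf N p`.
-/
import Mathlib
import Fermat.Agent.S31.H34.Top
import Fermat.Agent.S37.H77.CoreFree
import Fermat.Agent.S31.H76.CycLeaf
import Fermat.Agent.S31.H94.Stable
import Fermat.Agent.S31.H75.HeckeAction
import Fermat.Agent.S41.H26.ParabolicHecke

set_option autoImplicit false

open CongruenceSubgroup ModularCurve ModularCurve.Period CuspForm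
open Fermat.Agent.S16.H75 (heckeHom)

namespace Fermat.Agent.S31.H34

theorem esLeaf (N p : ℕ) [NeZero N] : ESLeaf N p :=
  Fermat.Agent.S37.H77.core_free N p

theorem cycLeaf (p : ℕ) (hp : p.Prime) : CycLeaf p :=
  Fermat.Agent.S31.H76.cycLeaf p hp

theorem stableLeaf (N p : ℕ) [NeZero N] : StableLeaf N p :=
  Fermat.Agent.S31.H94.stableLeaf N p

theorem haLeaf (N p : ℕ) [NeZero N] (S : Finset ℕ)
    (hNS : ∀ q : ℕ, q.Prime → q ∣ N → q ∈ S) (hp : p ≠ 0) : HALeaf N p S := by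
  have hNS' : ∀ q : ℕ, q.Prime → q ∣ N → q ∈ (↑S : Set ℕ) := fun q hq hqN =>
    Finset.mem_coe.2 (hNS q hq hqN)
  obtain ⟨c, hc⟩ := Fermat.Agent.S31.H75.exists_saturation N (↑S : Set ℕ) hNS' hp
  refine ⟨(Fermat.Agent.S31.H75.heckeAction N (↑S : Set ℕ) hNS').toRingHom, c,
    fun ℓ hℓ hℓN hℓS ψ => Fermat.Agent.S31.H75.heckeAction_T hNS' hℓ hℓN hℓS ψ, fun n f h => ?_⟩
  obtain ⟨f', hf'⟩ := hc n f (fun ψ => by
    obtain ⟨φ, hφ⟩ := h ψ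
    refine ⟨φ, ?_⟩
    have h1 : Fermat.Agent.S31.H75.heckeAction N (↑S : Set ℕ) hNS' f ψ = p ^ (n + c) • φ := hφ
    rw [h1, ← Nat.cast_pow, natCast_zsmul])
  refine ⟨f', ?_⟩
  rw [hf', ← Nat.cast_pow, natCast_zsmul]

/-- `AJLeaf` from the integral shape (R1) at every modulus `p ^ n`. -/
theorem ajLeaf_of_int (N p : ℕ) [NeZero N]
    (h : ∀ n : ℕ, ∃ AJ : ↥(parabolicHoms ℤ (Gamma0 N) ℤ) →+ JZero N,
      (∀ ψ, AJ ψ = 0 ↔ ∃ φ : ↥(parabolicHoms ℤ (Gamma0 N) ℤ), ψ = p ^ n • φ) ∧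
      (∀ ψ, p ^ n • AJ ψ = 0) ∧
      ∀ (ℓ : Nat.Primes), ¬ (ℓ : ℕ) ∣ N → ∀ ψ : ↥(parabolicHoms ℤ (Gamma0 N) ℤ),
        heckeOperatorBar N ℓ (AJ ψ) =
          AJ ⟨heckeHom N ℓ ℤ ψ, Fermat.Agent.S41.H26.heckeHom_mem_parabolicHoms N ℓ ψ.2⟩) :
    AJLeaf N p := by
  intro n
  obtain ⟨AJ, hker, -, hT⟩ := h n
  refine ⟨AJ, hker, fun ℓ hℓ ψ ψ' hψ' => ?_⟩
  rw [hT ℓ hℓ ψ]
  congr 1
  exact Subtype.ext hψ'.symm

section Main

variable {p : ℕ} {N : ℕ} [NeZero N] {S : Finset ℕ}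
  {𝒪 : Type} [CommRing 𝒪] [IsDomain 𝒪] [IsDiscreteValuationRing 𝒪]
  [IsAdicComplete (IsLocalRing.maximalIdeal 𝒪) 𝒪]
  {θ : CuspForm.heckeAlgebra N 2 (↑S : Set ℕ) →+* IsLocalRing.ResidueField 𝒪}
  {T : Type} [CommRing T] [IsLocalRing T] [IsNoetherianRing T]
  [IsAdicComplete (IsLocalRing.maximalIdeal T) T] [Algebra 𝒪 T] [IsLocalHom (algebraMap 𝒪 T)]
  [Module.Finite 𝒪 T] [Module.Free 𝒪 T]

/-- **The frozen S31 from the Abel–Jacobi leaf alone.** -/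
theorem isUnramifiedAt_of_AJLeaf (hAJ : AJLeaf N p) (hp : p.Prime)
    (hp𝒪 : (p : 𝒪) ∈ IsLocalRing.maximalIdeal 𝒪) (hpS : p ∈ S)
    (hNS : ∀ q : ℕ, q.Prime → q ∣ N → q ∈ S)
    (H : CuspForm.HeckeGaloisRepDatum N (↑S : Set ℕ) 𝒪 θ T)
    (q : ℕ) (hq : q.Prime) (hqS : q ∉ S) :
    H.ρ.IsUnramifiedAt q :=
  isUnramifiedAt_of_leaves hAJ (esLeaf N p) (cycLeaf p hp) (stableLeaf N p)
    (haLeaf N p S hNS hp.ne_zero) hp hp𝒪 hpS hNS H q hq hqS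

end Main

end Fermat.Agent.S31.H34
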