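/-
S31 (helper34): the Abel–Jacobi leaf `AJLeaf N p` from helper96's landed AJ core in the integral
shape (R1), `S42.H96.exists_AJ_pow`, at the moduli `p ^ n`.
-/
import Mathlib
import Fermat.Agent.S31.H34.Assembly
import Fermat.Agent.S42.H96.Final

set_option autoImplicit false

namespace Fermat.Agent.S31.H34

/-- **(AJ)** = (R1), unconditionally, for every modulus base `p ≠ 0`. -/
theorem ajLeaf (N p : ℕ) [NeZero N] (hp : p ≠ 0) : AJLeaf N p :=
  ajLeaf_of_int N p fun n => Fermat.Agent.S42.H96.exists_AJ_pow N (p ^ n) (pow_ne_zero n hp)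

end Fermat.Agent.S31.H34
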